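import Mathlib

/-!
# S16 / reduction, abstract core (helper29)

Mathlib only.  `A` is the abstract Hecke algebra (a polynomial ring in the application), `χ₀ : A →+* ℤ`
the Eisenstein character, `φ : A →+* T` the surjection onto the Hecke algebra acting on the lattice
`L` of cusp forms with integral `q`-expansion, `a k : L →ₗ[ℤ] ℤ` the `k`-th coefficient.

* `natCard_quot` : `Nat.card (T ⧸ (ker χ₀).map φ) = n` as soon as `χ₀ (ker φ)` is the ideal `(n)`.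
* `exists_dual` : perfectness of the pairing `(t, f) ↦ a 1 (t f)`: every `ℤ`-linear form on `T` is
  `t ↦ a 1 (t f)` for some `f ∈ L`.
* `natCard_eq_of_bounds` : the reduction of the index computation to a lower bound (an eigenvector
  mod `n`) and an upper bound (a form congruent to the Eisenstein system mod `d` forces `d ∣ n`).
-/

set_option autoImplicit false

namespace Fermat.Agent.S16x.Red.H29

section LemmaA

variable {A T : Type*} [CommRing A] [CommRing T]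

theorem ker_mk_comp (φ : A →+* T) (hφ : Function.Surjective φ) (I : Ideal A) :
    RingHom.ker ((Ideal.Quotient.mk (I.map φ)).comp φ) = I ⊔ RingHom.ker φ := by
  ext x
  rw [RingHom.mem_ker, RingHom.comp_apply, Ideal.Quotient.eq_zero_iff_mem, ← Ideal.mem_comap,
    Ideal.comap_map_of_surjective φ hφ]
  rfl

theorem intHom_surjective (χ : A →+* ℤ) : Function.Surjective χ := fun z => ⟨(z : A), by simp⟩

/-- `T ⧸ φ(ker χ) ≃ ℤ ⧸ χ(ker φ)`. -/
noncomputable def quotEquiv (φ : A →+* T) (hφ : Function.Surjective φ) (χ : A →+* ℤ) :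
    (T ⧸ (RingHom.ker χ).map φ) ≃+* (ℤ ⧸ (RingHom.ker φ).map χ) :=
  let g₁ : A →+* T ⧸ (RingHom.ker χ).map φ := (Ideal.Quotient.mk _).comp φ
  let g₂ : A →+* ℤ ⧸ (RingHom.ker φ).map χ := (Ideal.Quotient.mk _).comp χ
  have h₁ : Function.Surjective g₁ := Ideal.Quotient.mk_surjective.comp hφ
  have h₂ : Function.Surjective g₂ := Ideal.Quotient.mk_surjective.comp (intHom_surjective χ)
  have hk : RingHom.ker g₁ = RingHom.ker g₂ := by
    rw [ker_mk_comp φ hφ, ker_mk_comp χ (intHom_surjective χ), sup_comm]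
  (RingHom.quotientKerEquivOfSurjective h₁).symm.trans
    ((Ideal.quotEquivOfEq hk).trans (RingHom.quotientKerEquivOfSurjective h₂))

theorem map_ker_eq_span (φ : A →+* T) (χ : A →+* ℤ) (n : ℕ)
    (hlow : ∀ P : A, φ P = 0 → (n : ℤ) ∣ χ P)
    (hup : ∀ d : ℕ, (∀ P : A, φ P = 0 → (d : ℤ) ∣ χ P) → d ∣ n) :
    (RingHom.ker φ).map χ = Ideal.span {(n : ℤ)} := by
  apply le_antisymm
  · rw [Ideal.map_le_iff_le_comap]
    intro P hP
    rw [Ideal.mem_comap, Ideal.mem_span_singleton]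
    exact hlow P hP
  · set J := (RingHom.ker φ).map χ with hJ
    obtain ⟨g, hg⟩ : ∃ g : ℤ, J = Ideal.span {g} :=
      ⟨Submodule.IsPrincipal.generator J, (Ideal.span_singleton_generator J).symm⟩
    have hd : g.natAbs ∣ n := by
      apply hup
      intro P hP
      have : χ P ∈ J := Ideal.mem_map_of_mem χ hP
      rw [hg, Ideal.mem_span_singleton] at this
      exact Int.natAbs_dvd.mpr this
    rw [Ideal.span_singleton_le_iff_mem, hg, Ideal.mem_span_singleton]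
    exact Int.natAbs_dvd.mp (Int.natCast_dvd_natCast.mpr hd)

/-- **Lemma A.** -/
theorem natCard_quot (φ : A →+* T) (hφ : Function.Surjective φ) (χ : A →+* ℤ) (n : ℕ)
    (hlow : ∀ P : A, φ P = 0 → (n : ℤ) ∣ χ P)
    (hup : ∀ d : ℕ, (∀ P : A, φ P = 0 → (d : ℤ) ∣ χ P) → d ∣ n) :
    Nat.card (T ⧸ (RingHom.ker χ).map φ) = n := by
  rw [Nat.card_congr (quotEquiv φ hφ χ).toEquiv, map_ker_eq_span φ χ n hlow hup,
    Nat.card_congr (Int.quotientSpanNatEquivZMod n).toEquiv, Nat.card_zmod]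

end LemmaA

section LemmaB

variable {T L : Type*} [CommRing T] [AddCommGroup L]

/-- the pairing `(t, f) ↦ a₁ (t f)` as a map `L → Hom(T, ℤ)`. -/
def pairL (ι : T →+* Module.End ℤ L) (a₁ : L →ₗ[ℤ] ℤ) : L →ₗ[ℤ] (T →ₗ[ℤ] ℤ) where
  toFun f :=
    { toFun := fun t => a₁ (ι t f)
      map_add' := fun s t => by simp [map_add]
      map_smul' := fun z t => by simp }
  map_add' f g := by ext t; simp [map_add]
  map_smul' z f := by ext t; simp

@[simp] theorem pairL_apply (ι : T →+* Module.End ℤ L) (a₁ : L →ₗ[ℤ] ℤ) (f : L) (t : T) :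
    pairL ι a₁ f t = a₁ (ι t f) := rfl

/-- the pairing as a map `T → Hom(L, ℤ)`. -/
def pairT (ι : T →+* Module.End ℤ L) (a₁ : L →ₗ[ℤ] ℤ) : T →ₗ[ℤ] (L →ₗ[ℤ] ℤ) where
  toFun t := a₁.comp (ι t)
  map_add' s t := by ext f; simp [map_add]
  map_smul' z t := by ext f; simp

@[simp] theorem pairT_apply (ι : T →+* Module.End ℤ L) (a₁ : L →ₗ[ℤ] ℤ) (f : L) (t : T) :
    pairT ι a₁ t f = a₁ (ι t f) := rfl

variable (ι : T →+* Module.End ℤ L) (a : ℕ → L →ₗ[ℤ] ℤ)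

theorem pairL_injective
    (hinj : ∀ f : L, (∀ k, 1 ≤ k → a k f = 0) → f = 0)
    (ht : ∀ k, 1 ≤ k → ∃ t : T, ∀ f, a k f = a 1 (ι t f)) :
    Function.Injective (pairL ι (a 1)) := by
  rw [injective_iff_map_eq_zero]
  intro f hf
  apply hinj
  intro k hk
  obtain ⟨t, ht⟩ := ht k hk
  rw [ht f]
  exact LinearMap.congr_fun hf t

theorem pairT_injective (hι : Function.Injective ι)
    (hinj : ∀ f : L, (∀ k, 1 ≤ k → a k f = 0) → f = 0)
    (ht : ∀ k, 1 ≤ k → ∃ t : T, ∀ f, a k f = a 1 (ι t f)) :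
    Function.Injective (pairT ι (a 1)) := by
  rw [injective_iff_map_eq_zero]
  intro t h
  apply hι
  rw [map_zero]
  ext f
  apply hinj
  intro k hk
  obtain ⟨s, hs⟩ := ht k hk
  rw [hs, ← Module.End.mul_apply, ← map_mul, mul_comm, map_mul, Module.End.mul_apply]
  exact LinearMap.congr_fun h (ι s f)

variable [Module.Free ℤ T] [Module.Finite ℤ T] [Module.Free ℤ L] [Module.Finite ℤ L]

theorem finrank_eq (hι : Function.Injective ι)
    (hinj : ∀ f : L, (∀ k, 1 ≤ k → a k f = 0) → f = 0)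
    (ht : ∀ k, 1 ≤ k → ∃ t : T, ∀ f, a k f = a 1 (ι t f)) :
    Module.finrank ℤ L = Module.finrank ℤ T := by
  apply le_antisymm
  · have := LinearMap.finrank_le_finrank_of_injective (pairL_injective ι a hinj ht)
    rwa [Module.finrank_linearMap, Module.finrank_self, mul_one] at this
  · have := LinearMap.finrank_le_finrank_of_injective (pairT_injective ι a hι hinj ht)
    rwa [Module.finrank_linearMap, Module.finrank_self, mul_one] at this

/-- **Lemma B (perfectness).** Every linear form on `T` is `t ↦ a 1 (t f)`. -/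
theorem exists_dual (hι : Function.Injective ι)
    (hinj : ∀ f : L, (∀ k, 1 ≤ k → a k f = 0) → f = 0)
    (hsat : ∀ (f : L) (d : ℕ), d ≠ 0 → (∀ k, 1 ≤ k → (d : ℤ) ∣ a k f) →
      ∃ g : L, f = (d : ℤ) • g)
    (ht : ∀ k, 1 ≤ k → ∃ t : T, ∀ f, a k f = a 1 (ι t f))
    (ψ : T →ₗ[ℤ] ℤ) : ∃ f : L, ∀ t : T, a 1 (ι t f) = ψ t := by
  classical
  have hαinj := pairL_injective ι a hinj ht
  set R : Submodule ℤ (T →ₗ[ℤ] ℤ) := LinearMap.range (pairL ι (a 1)) with hR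
  have hrank : Module.finrank ℤ R = Module.finrank ℤ (T →ₗ[ℤ] ℤ) := by
    rw [LinearMap.finrank_range_of_inj hαinj, Module.finrank_linearMap, Module.finrank_self,
      mul_one]
    exact finrank_eq ι a hι hinj ht
  have : Finite ((T →ₗ[ℤ] ℤ) ⧸ R) := Submodule.finiteQuotientOfFreeOfRankEq R hrank
  set N : ℕ := Nat.card ((T →ₗ[ℤ] ℤ) ⧸ R) with hN
  have hN0 : N ≠ 0 := Nat.card_pos.ne'
  have hmem : N • ψ ∈ R := by
    rw [← Submodule.Quotient.mk_eq_zero, Submodule.Quotient.mk_smul]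
    exact card_nsmul_eq_zero'
  obtain ⟨f₁, hf₁⟩ := hmem
  have hdiv : ∀ k, 1 ≤ k → (N : ℤ) ∣ a k f₁ := by
    intro k hk
    obtain ⟨s, hs⟩ := ht k hk
    have := LinearMap.congr_fun hf₁ s
    simp only [pairL_apply, LinearMap.smul_apply] at this
    rw [hs, this]
    exact ⟨ψ s, by simp⟩
  obtain ⟨g, hg⟩ := hsat f₁ N hN0 hdiv
  refine ⟨g, fun t => ?_⟩
  have := LinearMap.congr_fun hf₁ t
  simp only [pairL_apply, LinearMap.smul_apply, hg, map_zsmul] at this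
  have hN' : (N : ℤ) ≠ 0 := by exact_mod_cast hN0
  apply mul_left_cancel₀ hN'
  simpa [nsmul_eq_mul] using this

/-- **Lemma B mod `d`.** Every additive map `T → ZMod d` is `t ↦ a 1 (t f) mod d`. -/
theorem exists_dual_mod (hι : Function.Injective ι)
    (hinj : ∀ f : L, (∀ k, 1 ≤ k → a k f = 0) → f = 0)
    (hsat : ∀ (f : L) (d : ℕ), d ≠ 0 → (∀ k, 1 ≤ k → (d : ℤ) ∣ a k f) →
      ∃ g : L, f = (d : ℤ) • g)
    (ht : ∀ k, 1 ≤ k → ∃ t : T, ∀ f, a k f = a 1 (ι t f))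
    (d : ℕ) (χ : T →+ ZMod d) : ∃ f : L, ∀ t : T, ((a 1 (ι t f) : ℤ) : ZMod d) = χ t := by
  classical
  let b := Module.Free.chooseBasis ℤ T
  let ψ : T →ₗ[ℤ] ℤ := b.constr ℤ (fun i => ((χ (b i)).cast : ℤ))
  obtain ⟨f, hf⟩ := exists_dual ι a hι hinj hsat ht ψ
  refine ⟨f, fun t => ?_⟩
  rw [hf t]
  have h : ((Int.castAddHom (ZMod d)).comp ψ.toAddMonoidHom).toIntLinearMap =
      χ.toIntLinearMap := by
    apply b.ext
    intro i
    simp [ψ]
  exact LinearMap.congr_fun h t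

end LemmaB

section Reduction

variable {A T L : Type*} [CommRing A] [CommRing T] [AddCommGroup L]

/-- the lower bound from an eigenvector mod `n` whose first coefficient is `1 mod n`. -/
theorem dvd_of_eigen (φ : A →+* T) (ι : T →+* Module.End ℤ L) (χ₀ : A →+* ℤ)
    (a₁ : L →ₗ[ℤ] ℤ) (n : ℕ) (f : L) (h1 : (n : ℤ) ∣ a₁ f - 1)
    (heig : ∀ P : A, ∃ g : L, ι (φ P) f - χ₀ P • f = (n : ℤ) • g) (P : A) (hP : φ P = 0) :
    (n : ℤ) ∣ χ₀ P := by
  obtain ⟨g, hg⟩ := heig P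
  rw [hP, map_zero, LinearMap.zero_apply, zero_sub] at hg
  have h2 := congrArg a₁ hg
  rw [map_neg, map_zsmul, map_zsmul, smul_eq_mul, smul_eq_mul] at h2
  obtain ⟨c, hc⟩ := h1
  have h3 : a₁ f = 1 + n * c := by linarith
  rw [h3] at h2
  exact ⟨-(a₁ g) - χ₀ P * c, by linear_combination -h2⟩

/-- an eigenvector mod `n` for the generators of a polynomial ring is one for every polynomial. -/
theorem eigen_of_gen {σ : Type*} (φ : MvPolynomial σ ℤ →+* T) (ι : T →+* Module.End ℤ L)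
    (χ₀ : MvPolynomial σ ℤ →+* ℤ) (n : ℕ) (f : L)
    (h : ∀ i : σ, ∃ g : L,
      ι (φ (MvPolynomial.X i)) f - χ₀ (MvPolynomial.X i) • f = (n : ℤ) • g)
    (P : MvPolynomial σ ℤ) : ∃ g : L, ι (φ P) f - χ₀ P • f = (n : ℤ) • g := by
  induction P using MvPolynomial.induction_on with
  | C z =>
    refine ⟨0, ?_⟩
    have h1 : (MvPolynomial.C z : MvPolynomial σ ℤ) = (z : MvPolynomial σ ℤ) := by
      rw [← MvPolynomial.algebraMap_eq]; simp
    rw [h1, map_intCast, map_intCast, map_intCast, smul_zero]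
    simp
  | add P Q hP hQ =>
    obtain ⟨g₁, hg₁⟩ := hP
    obtain ⟨g₂, hg₂⟩ := hQ
    refine ⟨g₁ + g₂, ?_⟩
    rw [map_add, map_add, map_add, LinearMap.add_apply, add_smul, smul_add, ← hg₁, ← hg₂]
    abel
  | mul_X P i hP =>
    obtain ⟨g₁, hg₁⟩ := hP
    obtain ⟨g₂, hg₂⟩ := h i
    refine ⟨ι (φ P) g₂ + χ₀ (MvPolynomial.X i) • g₁, ?_⟩
    have e1 : ι (φ (MvPolynomial.X i)) f = χ₀ (MvPolynomial.X i) • f + (n : ℤ) • g₂ := by
      rw [← hg₂]; abel
    have e2 : ι (φ P) f = χ₀ P • f + (n : ℤ) • g₁ := by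
      rw [← hg₁]; abel
    rw [map_mul, map_mul, map_mul, Module.End.mul_apply, e1, map_add, map_zsmul, map_zsmul, e2]
    module

variable [Module.Free ℤ T] [Module.Finite ℤ T] [Module.Free ℤ L] [Module.Finite ℤ L]

/-- the upper bound: if `d` divides `χ₀ (ker φ)`, some `f ∈ L` is congruent to the system
`χ₀ (t k)` modulo `d`. -/
theorem exists_congr_of_dvd (φ : A →+* T) (hφ : Function.Surjective φ)
    (ι : T →+* Module.End ℤ L) (hι : Function.Injective ι)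
    (χ₀ : A →+* ℤ) (a : ℕ → L →ₗ[ℤ] ℤ)
    (hinj : ∀ f : L, (∀ k, 1 ≤ k → a k f = 0) → f = 0)
    (hsat : ∀ (f : L) (d : ℕ), d ≠ 0 → (∀ k, 1 ≤ k → (d : ℤ) ∣ a k f) →
      ∃ g : L, f = (d : ℤ) • g)
    (t : ℕ → A) (ht : ∀ k, 1 ≤ k → ∀ f, a k f = a 1 (ι (φ (t k)) f))
    (d : ℕ) (hd : ∀ P : A, φ P = 0 → (d : ℤ) ∣ χ₀ P) :
    ∃ f : L, ∀ k, 1 ≤ k → (d : ℤ) ∣ a k f - χ₀ (t k) := by
  have hker : RingHom.ker φ ≤ RingHom.ker ((Int.castRingHom (ZMod d)).comp χ₀) := by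
    intro P hP
    rw [RingHom.mem_ker, RingHom.comp_apply, eq_intCast, ZMod.intCast_zmod_eq_zero_iff_dvd]
    exact hd P hP
  let χ : T →+* ZMod d := RingHom.liftOfSurjective φ hφ ⟨_, hker⟩
  have hχ : ∀ P : A, χ (φ P) = ((χ₀ P : ℤ) : ZMod d) := fun P => by
    have := RingHom.liftOfRightInverse_comp_apply φ _ (Function.surjInv_eq hφ) ⟨_, hker⟩ P
    simpa using this
  obtain ⟨f, hf⟩ := exists_dual_mod ι a hι hinj hsat
    (fun k hk => ⟨φ (t k), ht k hk⟩) d χ.toAddMonoidHom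
  refine ⟨f, fun k hk => ?_⟩
  have h1 := hf (φ (t k))
  rw [← ht k hk f] at h1
  have h2 : ((a k f : ℤ) : ZMod d) = ((χ₀ (t k) : ℤ) : ZMod d) := by
    rw [h1]; exact hχ (t k)
  rw [ZMod.intCast_eq_intCast_iff_dvd_sub] at h2
  have := (dvd_neg (a := (d : ℤ))).mpr h2
  simpa using this

/-- **Reduction.** -/
theorem natCard_eq_of_bounds (φ : A →+* T) (hφ : Function.Surjective φ)
    (ι : T →+* Module.End ℤ L) (hι : Function.Injective ι)
    (χ₀ : A →+* ℤ) (a : ℕ → L →ₗ[ℤ] ℤ)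
    (hinj : ∀ f : L, (∀ k, 1 ≤ k → a k f = 0) → f = 0)
    (hsat : ∀ (f : L) (d : ℕ), d ≠ 0 → (∀ k, 1 ≤ k → (d : ℤ) ∣ a k f) →
      ∃ g : L, f = (d : ℤ) • g)
    (t : ℕ → A) (ht : ∀ k, 1 ≤ k → ∀ f, a k f = a 1 (ι (φ (t k)) f))
    (n : ℕ)
    (hlow : ∃ f : L, (n : ℤ) ∣ a 1 f - 1 ∧
      ∀ P : A, ∃ g : L, ι (φ P) f - χ₀ P • f = (n : ℤ) • g)
    (hup : ∀ d : ℕ, (∃ f : L, ∀ k, 1 ≤ k → (d : ℤ) ∣ a k f - χ₀ (t k)) → d ∣ n) :
    Nat.card (T ⧸ (RingHom.ker χ₀).map φ) = n := by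
  obtain ⟨f, h1, heig⟩ := hlow
  refine natCard_quot φ hφ χ₀ n (fun P hP => dvd_of_eigen φ ι χ₀ (a 1) n f h1 heig P hP)
    (fun d hd => hup d (exists_congr_of_dvd φ hφ ι hι χ₀ a hinj hsat t ht d hd))

omit [AddCommGroup L] [Module.Free ℤ L] [Module.Finite ℤ L] in
/-- it suffices to prove the upper bound for prime powers. -/
theorem upper_of_prime_pow (a : ℕ → L → ℤ) (s : ℕ → ℤ) (n : ℕ)
    (h : ∀ (ℓ e : ℕ), ℓ.Prime → 1 ≤ e →
      (∃ f : L, ∀ k, 1 ≤ k → ((ℓ ^ e : ℕ) : ℤ) ∣ a k f - s k) → ℓ ^ e ∣ n)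
    (d : ℕ) (hd : ∃ f : L, ∀ k, 1 ≤ k → (d : ℤ) ∣ a k f - s k) : d ∣ n := by
  obtain ⟨f, hf⟩ := hd
  rw [Nat.dvd_iff_prime_pow_dvd_dvd]
  intro ℓ e hℓ he
  rcases Nat.eq_zero_or_pos e with rfl | hpos
  · simp
  · exact h ℓ e hℓ hpos ⟨f, fun k hk =>
      (Int.natCast_dvd_natCast.mpr he).trans (hf k hk)⟩

end Reduction

end Fermat.Agent.S16x.Red.H29
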