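import Fermat.Agent.S16x.Asm.Defs
import Fermat.Agent.S16x.Red.H29_Abs

/-!
# S16 / [RED]: surjectivity of `ρ`, `StHomOfKer`, `StCard` (helper19)

* `h19_heckeEvalForms_surjective`, `h19_rho_surjective` : the structure map
  `ρ : ℤ[X_ℓ] → T` is surjective;
* `h19_eisChar_eq` : `eisChar p M P = ((χ₀ P : ℤ) : ZMod M)` with `χ₀ = aeval (eisensteinSystem p)`;
* `h19_stHomOfKer : Asm.StHomOfKer p`;
* `h19_stCard : Asm.StCard p`.
-/

set_option autoImplicit false
set_option linter.unusedSectionVars false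

open ModularCurve CuspForm

noncomputable section

namespace Fermat.Agent.S16x.Red

open Fermat.Agent.S16x.Asm

variable (p : ℕ) [Fact p.Prime]

/-- every element of the Hecke algebra is a polynomial in the generators `T_ℓ`, `U_p`. -/
theorem h19_heckeEvalForms_surjective (N : ℕ) [NeZero N] (k : ℤ) :
    Function.Surjective (heckeEvalForms N k) := by
  rintro ⟨x, hx⟩
  suffices h : ∃ P : HeckeAlg,
      ((heckeEvalForms N k P : heckeAlgebra N k ∅) :
        Module.End ℂ (CuspForm (CongruenceSubgroup.Gamma0 N) k)) = x by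
    obtain ⟨P, hP⟩ := h
    exact ⟨P, Subtype.ext hP⟩
  induction hx using Algebra.adjoin_induction with
  | mem y hy =>
    rcases hy with ⟨ℓ, hℓ, hℓN, -, rfl⟩ | ⟨q, hqN, hq, -, rfl⟩
    · refine ⟨heckeGen ⟨ℓ, hℓ⟩, ?_⟩
      rw [heckeEvalForms_heckeGen_of_not_dvd (N := N) (k := k) (ℓ := ⟨ℓ, hℓ⟩) hℓN]
      rfl
    · refine ⟨heckeGen ⟨q, hq⟩, ?_⟩
      rw [heckeEvalForms_heckeGen_of_dvd (N := N) (k := k) (q := ⟨q, hq⟩) hqN]
      rfl
  | algebraMap r =>
    refine ⟨MvPolynomial.C r, ?_⟩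
    rw [heckeEvalForms_C]
    rfl
  | add y z _ _ hy hz =>
    obtain ⟨P, hP⟩ := hy
    obtain ⟨Q, hQ⟩ := hz
    exact ⟨P + Q, by rw [map_add, ← hP, ← hQ]; rfl⟩
  | mul y z _ _ hy hz =>
    obtain ⟨P, hP⟩ := hy
    obtain ⟨Q, hQ⟩ := hz
    exact ⟨P * Q, by rw [map_mul, ← hP, ← hQ]; rfl⟩

/-- **[RED-SURJ]** the structure map `ρ` is surjective. -/
theorem h19_rho_surjective : Function.Surjective (rho p) := by
  intro t
  obtain ⟨s, hs⟩ := latticeRestrictHom_surjective p ∅ t
  obtain ⟨P, hP⟩ := h19_heckeEvalForms_surjective p 2 s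
  exact ⟨P, by rw [← hs, ← hP]; rfl⟩

/-- the integral Eisenstein character `χ₀ : ℤ[X_ℓ] → ℤ`. -/
def h19_chi0 : HeckeAlg →+* ℤ :=
  (MvPolynomial.aeval (R := ℤ) (eisensteinSystem p)).toRingHom

theorem h19_ker_chi0 : RingHom.ker (h19_chi0 p) = eisensteinIdeal p := by
  ext P
  rw [RingHom.mem_ker, eisensteinIdeal, mem_eigenIdeal_iff]
  rfl

theorem h19_eisChar_eq (M : ℕ) (P : HeckeAlg) :
    eisChar p M P = ((h19_chi0 p P : ℤ) : ZMod M) := by
  have h : eisChar p M = (Int.castRingHom (ZMod M)).comp (h19_chi0 p) := by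
    apply MvPolynomial.ringHom_ext
    · intro r
      simp [eisChar, h19_chi0]
    · intro ℓ
      simp [eisChar, h19_chi0]
  rw [h]
  rfl

theorem h19_eisKer_iff (M : ℕ) :
    EisKer p M ↔ ∀ P : HeckeAlg, rho p P = 0 → (M : ℤ) ∣ h19_chi0 p P := by
  unfold EisKer
  refine forall_congr' fun P => imp_congr_right fun _ => ?_
  rw [h19_eisChar_eq, ZMod.intCast_zmod_eq_zero_iff_dvd]

/-- **[RED] StHomOfKer.** -/
theorem h19_stHomOfKer : StHomOfKer p := by
  intro M _ hker
  have hk : RingHom.ker (rho p) ≤ RingHom.ker (eisChar p M) := fun P hP => by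
    rw [RingHom.mem_ker] at hP ⊢
    exact hker P hP
  refine ⟨RingHom.liftOfSurjective (rho p) (h19_rho_surjective p) ⟨eisChar p M, hk⟩, fun P => ?_⟩
  exact RingHom.liftOfRightInverse_comp_apply (rho p) _
    (Function.surjInv_eq (h19_rho_surjective p)) ⟨eisChar p M, hk⟩ P

theorem h19_eisKer_of_eisHom (M : ℕ) (h : EisHom p M) : EisKer p M := by
  obtain ⟨φ, hφ⟩ := h
  intro P hP
  rw [← hφ P, hP, map_zero]

theorem h19_eisensteinNumerator_pos : 0 < eisensteinNumerator p := by
  have hp : 2 ≤ p := (Fact.out : p.Prime).two_le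
  unfold eisensteinNumerator
  apply Nat.div_pos
  · exact Nat.le_of_dvd (by omega) (Nat.gcd_dvd_left _ _)
  · exact Nat.gcd_pos_of_pos_left _ (by omega)

/-- **[RED] StCard.** -/
theorem h19_stCard : StCard p := by
  intro hup hlow
  have hI : Ideal.map ((latticeRestrictHom p ∅).toRingHom.comp (heckeEvalForms p 2))
      (eisensteinIdeal p) = (RingHom.ker (h19_chi0 p)).map (rho p) := by
    rw [h19_ker_chi0]
    rfl
  rw [hI]
  refine H29.natCard_quot (rho p) (h19_rho_surjective p) (h19_chi0 p) (eisensteinNumerator p)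
    ((h19_eisKer_iff p _).mp (h19_eisKer_of_eisHom p _ hlow)) ?_
  intro d hd
  rcases Nat.eq_zero_or_pos d with rfl | hdpos
  · exfalso
    -- every `M` is admissible, in particular `M = n + 1`
    have hn := h19_eisensteinNumerator_pos p
    have hall : ∀ M : ℕ, EisKer p M := by
      intro M
      rw [h19_eisKer_iff]
      intro P hP
      have := hd P hP
      rw [Nat.cast_zero, zero_dvd_iff] at this
      rw [this]
      exact dvd_zero _
    have := hup (eisensteinNumerator p + 1) (Nat.succ_pos _)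
      (h19_stHomOfKer p _ (Nat.succ_pos _) (hall _))
    have := Nat.le_of_dvd hn this
    omega
  · exact hup d hdpos (h19_stHomOfKer p d hdpos ((h19_eisKer_iff p d).mpr hd))

end Fermat.Agent.S16x.Red
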