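import Fermat.Agent.S16x.Asm.Defs
import Fermat.Agent.S49.Basic

/-!
# S16 / [RED-COEFF]: the coefficient functionals on the integral lattice (helper19)

`L := intLattice N 2` (cusp forms of weight 2 on `Γ₀(N)` with integral `q`-expansion).

* `h19_coeff N k : L →ₗ[ℤ] ℤ`, `h19_coeff_spec : ((h19_coeff N k f : ℤ) : ℂ) = qCoeff f k`;
* `h19_coeff_inj` : `(∀ k ≥ 1, h19_coeff N k f = 0) → f = 0`;
* `h19_coeff_sat` : if `d ∣ h19_coeff N k f` for all `k ≥ 1` (`d ≠ 0`) then `f = d • g`.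
-/

set_option autoImplicit false
set_option linter.unusedSectionVars false

open ModularCurve CuspForm

noncomputable section

namespace Fermat.Agent.S16x.Red

open ModularFormClass CongruenceSubgroup

variable (N : ℕ)

theorem h19_exists_int (f : ↥(intLattice N 2)) (k : ℕ) :
    ∃ m : ℤ, qCoeff ⇑(f : CuspForm (Gamma0 N) 2) k = (m : ℂ) :=
  (Fermat.Agent.S49.mem_intLattice_iff (f : CuspForm (Gamma0 N) 2)).mp f.2 k

/-- the `k`-th `q`-coefficient of a form in the integral lattice, as an integer. -/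
def h19_coeffFun (k : ℕ) (f : ↥(intLattice N 2)) : ℤ := (h19_exists_int N f k).choose

theorem h19_coeffFun_spec (k : ℕ) (f : ↥(intLattice N 2)) :
    ((h19_coeffFun N k f : ℤ) : ℂ) = qCoeff ⇑(f : CuspForm (Gamma0 N) 2) k :=
  ((h19_exists_int N f k).choose_spec).symm

/-- the `k`-th coefficient functional `L → ℤ`. -/
def h19_coeff (k : ℕ) : ↥(intLattice N 2) →ₗ[ℤ] ℤ where
  toFun := h19_coeffFun N k
  map_add' f g := by
    have h : ((h19_coeffFun N k (f + g) : ℤ) : ℂ) =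
        ((h19_coeffFun N k f + h19_coeffFun N k g : ℤ) : ℂ) := by
      rw [Int.cast_add, h19_coeffFun_spec, h19_coeffFun_spec, h19_coeffFun_spec]
      exact Fermat.Agent.S49.qCoeff_add _ _ k
    exact_mod_cast h
  map_smul' z f := by
    have h : ((h19_coeffFun N k (z • f) : ℤ) : ℂ) =
        ((z * h19_coeffFun N k f : ℤ) : ℂ) := by
      rw [Int.cast_mul, h19_coeffFun_spec, h19_coeffFun_spec]
      have h1 : ((z • f : ↥(intLattice N 2)) : CuspForm (Gamma0 N) 2) =
          (z : ℂ) • (f : CuspForm (Gamma0 N) 2) := by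
        rw [Submodule.coe_smul, Int.cast_smul_eq_zsmul]
      rw [h1]
      exact Fermat.Agent.S49.qCoeff_smul _ _ k
    have h2 : h19_coeffFun N k (z • f) = z * h19_coeffFun N k f := by exact_mod_cast h
    simpa using h2

theorem h19_coeff_spec (k : ℕ) (f : ↥(intLattice N 2)) :
    ((h19_coeff N k f : ℤ) : ℂ) = qCoeff ⇑(f : CuspForm (Gamma0 N) 2) k :=
  h19_coeffFun_spec N k f

/-- **q-expansion principle** on the lattice. -/
theorem h19_coeff_inj (f : ↥(intLattice N 2)) (h : ∀ k, 1 ≤ k → h19_coeff N k f = 0) :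
    f = 0 := by
  apply Subtype.ext
  apply Fermat.Agent.S49.eq_zero_of_forall_qCoeff_eq_zero
  intro n
  rcases Nat.eq_zero_or_pos n with rfl | hn
  · exact Fermat.Agent.S49.qCoeff_coeff_zero _
  · rw [← h19_coeff_spec, h n hn, Int.cast_zero]

/-- **saturation** of the lattice. -/
theorem h19_coeff_sat (f : ↥(intLattice N 2)) (d : ℕ) (hd : d ≠ 0)
    (h : ∀ k, 1 ≤ k → (d : ℤ) ∣ h19_coeff N k f) :
    ∃ g : ↥(intLattice N 2), f = (d : ℤ) • g := by
  have hdC : (d : ℂ) ≠ 0 := by exact_mod_cast hd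
  set g0 : CuspForm (Gamma0 N) 2 := ((d : ℂ)⁻¹) • (f : CuspForm (Gamma0 N) 2) with hg0
  have hg0mem : g0 ∈ intLattice N 2 := by
    rw [Fermat.Agent.S49.mem_intLattice_iff]
    intro n
    rw [hg0, Fermat.Agent.S49.qCoeff_smul]
    rcases Nat.eq_zero_or_pos n with rfl | hn
    · exact ⟨0, by rw [Fermat.Agent.S49.qCoeff_coeff_zero]; simp⟩
    · obtain ⟨c, hc⟩ := h n hn
      refine ⟨c, ?_⟩
      rw [← h19_coeff_spec, hc]
      push_cast
      field_simp
  refine ⟨⟨g0, hg0mem⟩, ?_⟩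
  apply Subtype.ext
  rw [Submodule.coe_smul]
  show (f : CuspForm (Gamma0 N) 2) = (d : ℤ) • g0
  rw [hg0, ← Int.cast_smul_eq_zsmul ℂ, smul_smul]
  push_cast
  rw [mul_inv_cancel₀ hdC, one_smul]

end Fermat.Agent.S16x.Red
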