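import Mathlib

/-!
# S16 / [RED] / [RED-SIGMA] : Hecke relations for `σ*`

`σ*(k) = ∑_{d ∣ k, p ∤ d} d`.  For primes `l ≠ p` and `m ≥ 1`:

* `σ*(l m) + l σ*(m / l) = (1 + l) σ*(m)`  (the second term only if `l ∣ m`);
* `σ*(p m) = σ*(m)`.
-/

set_option autoImplicit false

namespace Fermat.Agent.S16x.Red.H7

open Finset

/-- `σ*(k)`: the sum of the divisors of `k` which are not divisible by `p`. -/
def sigmaStar' (p k : ℕ) : ℕ := ∑ d ∈ k.divisors.filter (fun d => ¬ p ∣ d), d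

theorem sigmaStar'_def (p k : ℕ) :
    sigmaStar' p k = ∑ d ∈ k.divisors.filter (fun d => ¬ p ∣ d), d := rfl

theorem sigmaStar'_zero (p : ℕ) : sigmaStar' p 0 = 0 := by
  simp [sigmaStar']

theorem sigmaStar'_one (p : ℕ) (hp : p ≠ 1) : sigmaStar' p 1 = 1 := by
  have : (Nat.divisors 1).filter (fun d => ¬ p ∣ d) = {1} := by
    rw [Nat.divisors_one, Finset.filter_singleton, if_pos (by simpa using hp)]
  rw [sigmaStar', this, Finset.sum_singleton]

/-- The divisors of `l * m` (`l` prime) are the divisors of `m` together with the `l * d`,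
`d ∣ m`, `l * d ∤ m`. -/
theorem h7_divisors_prime_mul (l m : ℕ) (hl : l.Prime) (hm : 0 < m) :
    (l * m).divisors =
      m.divisors ∪ (m.divisors.filter (fun d => ¬ l * d ∣ m)).image (fun d => l * d) := by
  have hlm : l * m ≠ 0 := Nat.mul_ne_zero hl.ne_zero hm.ne'
  ext d
  simp only [Nat.mem_divisors, Finset.mem_union, Finset.mem_image, Finset.mem_filter]
  constructor
  · rintro ⟨hd, -⟩
    by_cases hdm : d ∣ m
    · exact Or.inl ⟨hdm, hm.ne'⟩
    · right
      have hld : l ∣ d := by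
        by_contra h
        have hcop : Nat.Coprime d l := (Nat.Coprime.symm ((Nat.Prime.coprime_iff_not_dvd hl).mpr h))
        exact hdm (hcop.dvd_of_dvd_mul_left hd)
      obtain ⟨e, rfl⟩ := hld
      refine ⟨e, ⟨⟨?_, hm.ne'⟩, hdm⟩, rfl⟩
      exact (Nat.mul_dvd_mul_iff_left hl.pos).mp hd
  · rintro (⟨hd, -⟩ | ⟨e, ⟨⟨he, -⟩, -⟩, rfl⟩)
    · exact ⟨Dvd.dvd.mul_left hd l, hlm⟩
    · exact ⟨Nat.mul_dvd_mul_left l he, hlm⟩

theorem h7_disjoint_prime_mul (l m : ℕ) :
    Disjoint m.divisors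
      ((m.divisors.filter (fun d => ¬ l * d ∣ m)).image (fun d => l * d)) := by
  rw [Finset.disjoint_left]
  intro d hd hd'
  rw [Finset.mem_image] at hd'
  obtain ⟨e, he, rfl⟩ := hd'
  rw [Finset.mem_filter] at he
  exact he.2 (Nat.dvd_of_mem_divisors hd)

/-- The divisors `d` of `m` with `l * d ∣ m` are the divisors of `m / l` if `l ∣ m`. -/
theorem h7_filter_mul_dvd (l m : ℕ) (hl : 0 < l) (hm : 0 < m) (hlm : l ∣ m) :
    m.divisors.filter (fun d => l * d ∣ m) = (m / l).divisors := by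
  obtain ⟨k, rfl⟩ := hlm
  have hk : 0 < k := by
    rcases Nat.eq_zero_or_pos k with h | h
    · subst h; simp at hm
    · exact h
  rw [Nat.mul_div_cancel_left k hl]
  ext d
  simp only [Finset.mem_filter, Nat.mem_divisors]
  constructor
  · rintro ⟨-, h⟩
    exact ⟨(Nat.mul_dvd_mul_iff_left hl).mp h, hk.ne'⟩
  · rintro ⟨h, -⟩
    exact ⟨⟨Dvd.dvd.mul_left h l, hm.ne'⟩, Nat.mul_dvd_mul_left l h⟩

theorem h7_filter_mul_dvd_of_not (l m : ℕ) (hlm : ¬ l ∣ m) :
    m.divisors.filter (fun d => l * d ∣ m) = ∅ := by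
  rw [Finset.filter_eq_empty_iff]
  intro d _ h
  exact hlm (dvd_of_mul_right_dvd h)

/-- **Hecke relation at `l`**, general form: `l` prime, `p` coprime to `l`. -/
theorem sigmaStar_mul_prime_of_coprime (p l m : ℕ) (hl : l.Prime)
    (hpc : Nat.Coprime p l) (hm : 0 < m) :
    sigmaStar' p (l * m) + l * (if l ∣ m then sigmaStar' p (m / l) else 0) =
      (1 + l) * sigmaStar' p m := by
  have hpd : ∀ d : ℕ, (p ∣ l * d ↔ p ∣ d) := fun d =>
    ⟨fun h => hpc.dvd_of_dvd_mul_left h, fun h => Dvd.dvd.mul_left h l⟩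
  -- first term
  have h1 : sigmaStar' p (l * m) = sigmaStar' p m +
      l * ∑ d ∈ (m.divisors.filter (fun d => ¬ p ∣ d)).filter (fun d => ¬ l * d ∣ m), d := by
    rw [sigmaStar', h7_divisors_prime_mul l m hl hm, Finset.filter_union,
      Finset.sum_union (Finset.disjoint_filter_filter (h7_disjoint_prime_mul l m))]
    congr 1
    rw [Finset.filter_image, Finset.sum_image (fun a _ b _ h => Nat.eq_of_mul_eq_mul_left hl.pos h),
      Finset.mul_sum]
    refine Finset.sum_congr ?_ (fun _ _ => rfl)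
    ext d
    simp only [Finset.mem_filter, hpd]
    tauto
  -- second term
  have h2 : (if l ∣ m then sigmaStar' p (m / l) else 0) =
      ∑ d ∈ (m.divisors.filter (fun d => ¬ p ∣ d)).filter (fun d => l * d ∣ m), d := by
    split_ifs with hlm
    · rw [sigmaStar', ← h7_filter_mul_dvd l m hl.pos hm hlm, Finset.filter_comm]
    · rw [Finset.filter_comm, h7_filter_mul_dvd_of_not l m hlm]
      simp
  have h3 : sigmaStar' p m =
      ∑ d ∈ (m.divisors.filter (fun d => ¬ p ∣ d)).filter (fun d => l * d ∣ m), d +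
      ∑ d ∈ (m.divisors.filter (fun d => ¬ p ∣ d)).filter (fun d => ¬ l * d ∣ m), d := by
    rw [sigmaStar', Finset.sum_filter_add_sum_filter_not]
  rw [h1, h2]
  generalize (∑ d ∈ (m.divisors.filter (fun d => ¬ p ∣ d)).filter (fun d => l * d ∣ m), d) = x at *
  generalize (∑ d ∈ (m.divisors.filter (fun d => ¬ p ∣ d)).filter (fun d => ¬ l * d ∣ m), d) = y at *
  rw [h3]
  ring

/-- **[RED-SIGMA]** Hecke relation at a prime `l ≠ p` (`p` prime). -/
theorem sigmaStar_mul_prime (p l m : ℕ) (hp : p.Prime) (hl : l.Prime) (hlp : l ≠ p)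
    (hm : 0 < m) :
    sigmaStar' p (l * m) + l * (if l ∣ m then sigmaStar' p (m / l) else 0) =
      (1 + l) * sigmaStar' p m := by
  have hpc : Nat.Coprime p l := (Nat.coprime_primes hp hl).mpr (Ne.symm hlp)
  exact sigmaStar_mul_prime_of_coprime p l m hl hpc hm

/-- **[RED-SIGMA]** `σ*(p m) = σ*(m)`. -/
theorem sigmaStar_mul_self (p m : ℕ) (hp : p.Prime) (hm : 0 < m) :
    sigmaStar' p (p * m) = sigmaStar' p m := by
  rw [sigmaStar', sigmaStar']
  refine Finset.sum_congr ?_ (fun _ _ => rfl)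
  ext d
  simp only [Finset.mem_filter, Nat.mem_divisors]
  constructor
  · rintro ⟨⟨hd, -⟩, hpd⟩
    have hcop : Nat.Coprime d p := (Nat.Coprime.symm ((Nat.Prime.coprime_iff_not_dvd hp).mpr hpd))
    exact ⟨⟨hcop.dvd_of_dvd_mul_left hd, hm.ne'⟩, hpd⟩
  · rintro ⟨⟨hd, -⟩, hpd⟩
    exact ⟨⟨Dvd.dvd.mul_left hd p, Nat.mul_ne_zero hp.ne_zero hm.ne'⟩, hpd⟩

/-- `σ_1(k) = σ*(k) + p σ_1(k / p)` (the second term only if `p ∣ k`); valid for every
`p ≥ 1` and every `k ≥ 1`. -/
theorem sigma_one_eq_sigmaStar_add (p k : ℕ) (hp : 0 < p) (hk : 0 < k) :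
    ArithmeticFunction.sigma 1 k =
      sigmaStar' p k + p * (if p ∣ k then ArithmeticFunction.sigma 1 (k / p) else 0) := by
  rw [ArithmeticFunction.sigma_one_apply, sigmaStar',
    ← Finset.sum_filter_not_add_sum_filter k.divisors (fun d => p ∣ d)]
  congr 1
  split_ifs with hpk
  · obtain ⟨m, rfl⟩ := hpk
    have hm : 0 < m := by
      rcases Nat.eq_zero_or_pos m with h | h
      · subst h; simp at hk
      · exact h
    rw [Nat.mul_div_cancel_left m hp, ArithmeticFunction.sigma_one_apply, Finset.mul_sum]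
    symm
    refine Finset.sum_bij (fun e _ => p * e) ?_ ?_ ?_ ?_
    · intro e he
      rw [Finset.mem_filter, Nat.mem_divisors]
      exact ⟨⟨Nat.mul_dvd_mul_left p (Nat.dvd_of_mem_divisors he), hk.ne'⟩, dvd_mul_right p e⟩
    · intro a _ b _ h
      exact Nat.eq_of_mul_eq_mul_left hp h
    · intro d hd
      rw [Finset.mem_filter, Nat.mem_divisors] at hd
      obtain ⟨⟨hd1, -⟩, e, rfl⟩ := hd
      refine ⟨e, ?_, rfl⟩
      rw [Nat.mem_divisors]
      exact ⟨(Nat.mul_dvd_mul_iff_left hp).mp hd1, hm.ne'⟩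
    · intro e _
      rfl
  · rw [mul_zero]
    apply Finset.sum_eq_zero
    intro d hd
    rw [Finset.mem_filter, Nat.mem_divisors] at hd
    exact absurd (dvd_trans hd.2 hd.1.1) hpk

/-- The integer form: `σ*(k) = σ_1(k) - p σ_1(k / p)` if `p ∣ k`. -/
theorem sigmaStar_eq_sub (p k : ℕ) (hp : 0 < p) (hk : 0 < k) (hpk : p ∣ k) :
    (sigmaStar' p k : ℤ) =
      (ArithmeticFunction.sigma 1 k : ℤ) - p * (ArithmeticFunction.sigma 1 (k / p) : ℤ) := by
  have := sigma_one_eq_sigmaStar_add p k hp hk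
  rw [if_pos hpk] at this
  rw [this]
  push_cast
  ring

/-- `σ*(k) = σ_1(k)` if `p ∤ k`. -/
theorem sigmaStar_eq_sigma (p k : ℕ) (hp : 0 < p) (hk : 0 < k) (hpk : ¬ p ∣ k) :
    sigmaStar' p k = ArithmeticFunction.sigma 1 k := by
  have := sigma_one_eq_sigmaStar_add p k hp hk
  rw [if_neg hpk, mul_zero, add_zero] at this
  exact this.symm

end Fermat.Agent.S16x.Red.H7
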