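import Mathlib
import Fermat.Agent.S16x.Asm.Defs
import Fermat.Agent.S16x.Red.H7_Sigma

/-!
# S16 / [RED] / [RED-SIGMA] : the Hecke relations for `Asm.sigmaStar`
-/

set_option autoImplicit false

namespace Fermat.Agent.S16x.Red.H7

open Fermat.Agent.S16x

theorem h7_sigmaStar_eq (p : ℕ) [Fact p.Prime] (k : ℕ) :
    Asm.sigmaStar p k = sigmaStar' p k := rfl

theorem h7_sigmaStar_one (p : ℕ) [Fact p.Prime] : Asm.sigmaStar p 1 = 1 :=
  sigmaStar'_one p (Fact.out : p.Prime).ne_one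

/-- Hecke relation at a prime `l ≠ p` for `Asm.sigmaStar`. -/
theorem h7_sigmaStar_mul_prime (p : ℕ) [Fact p.Prime] (l m : ℕ) (hl : l.Prime) (hlp : l ≠ p)
    (hm : 0 < m) :
    Asm.sigmaStar p (l * m) + l * (if l ∣ m then Asm.sigmaStar p (m / l) else 0) =
      (1 + l) * Asm.sigmaStar p m :=
  sigmaStar_mul_prime p l m Fact.out hl hlp hm

/-- `σ*(p m) = σ*(m)` for `Asm.sigmaStar`. -/
theorem h7_sigmaStar_mul_self (p : ℕ) [Fact p.Prime] (m : ℕ) (hm : 0 < m) :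
    Asm.sigmaStar p (p * m) = Asm.sigmaStar p m :=
  sigmaStar_mul_self p m Fact.out hm

/-- `σ_1(k) = σ*(k) + p σ_1(k / p)` for `Asm.sigmaStar`. -/
theorem h7_sigma_one_eq (p : ℕ) [Fact p.Prime] (k : ℕ) (hk : 0 < k) :
    ArithmeticFunction.sigma 1 k =
      Asm.sigmaStar p k + p * (if p ∣ k then ArithmeticFunction.sigma 1 (k / p) else 0) :=
  sigma_one_eq_sigmaStar_add p k (Fact.out : p.Prime).pos hk

end Fermat.Agent.S16x.Red.H7
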