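import Fermat.Agent.S16x.Red.H19_Card
import Fermat.Agent.S16x.Red.H19_Coeff
import Fermat.Agent.S16x.Red.H7_SigmaAsm
import Fermat.Agent.S23.H9_StepI

/-!
# S16 / [RED-TK] + [RED-DUAL]: Hecke polynomials and the duality `StDual` (helper19)

* `h19_exists_heckePoly` : for every `k ≥ 1` there is `P_k ∈ ℤ[X_ℓ]` with
  `a_1 (P_k(T) g) = a_k (g)` for all cusp forms `g` and `χ₀ (P_k) = σ*(k)`;
* `h19_stDual : Asm.StDual p`.
-/

set_option autoImplicit false
set_option linter.unusedSectionVars false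

open ModularCurve CuspForm

noncomputable section

namespace Fermat.Agent.S16x.Red

open Fermat.Agent.S16x.Asm ModularFormClass CongruenceSubgroup

variable (p : ℕ) [Fact p.Prime]

/-- the operator `P(T)` on cusp forms attached to a Hecke polynomial `P`. -/
def h19_op (P : HeckeAlg) : Module.End ℂ (CuspForm (Gamma0 p) 2) :=
  ((heckeEvalForms p 2 P : heckeAlgebra p 2 ∅) :
    Module.End ℂ (CuspForm (Gamma0 p) 2))

theorem h19_op_one : h19_op p 1 = 1 := by
  unfold h19_op
  rw [map_one]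
  rfl

theorem h19_op_mul (P Q : HeckeAlg) : h19_op p (P * Q) = h19_op p P * h19_op p Q := by
  unfold h19_op
  rw [map_mul]
  rfl

theorem h19_op_sub (P Q : HeckeAlg) : h19_op p (P - Q) = h19_op p P - h19_op p Q := by
  unfold h19_op
  rw [map_sub]
  rfl

theorem h19_op_C (z : ℤ) (g : CuspForm (Gamma0 p) 2) :
    h19_op p (MvPolynomial.C z) g = (z : ℂ) • g := by
  unfold h19_op
  rw [heckeEvalForms_C]
  show (algebraMap ℤ (Module.End ℂ (CuspForm (Gamma0 p) 2)) z) g = (z : ℂ) • g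
  rw [Algebra.algebraMap_eq_smul_one, LinearMap.smul_apply, Module.End.one_apply,
    ← Int.cast_smul_eq_zsmul ℂ]

/-- the prime `p` as an element of `Nat.Primes`. -/
def h19_pr : Nat.Primes := ⟨p, Fact.out⟩

/-- a prime `ℓ` as an element of `Nat.Primes`. -/
def h19_mk {ℓ : ℕ} (hℓ : ℓ.Prime) : Nat.Primes := ⟨ℓ, hℓ⟩

theorem h19_op_X_self :
    h19_op p (heckeGen (h19_pr p)) = CuspForm.heckeULin 2 (dvd_refl p) := by
  unfold h19_op
  rw [heckeEvalForms_heckeGen_of_dvd (N := p) (k := 2) (q := h19_pr p) (dvd_refl p)]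
  rfl

theorem h19_op_X_of_ne {ℓ : ℕ} (hℓ : ℓ.Prime) (hℓp : ¬ ℓ ∣ p) :
    h19_op p (heckeGen (h19_mk hℓ)) = CuspForm.heckeTLin 2 hℓ hℓp := by
  unfold h19_op
  rw [heckeEvalForms_heckeGen_of_not_dvd (N := p) (k := 2) (ℓ := h19_mk hℓ) hℓp]
  rfl

theorem h19_chi0_X_self : h19_chi0 p (heckeGen (h19_pr p)) = 1 := by
  have h : h19_chi0 p (heckeGen (h19_pr p)) =
      MvPolynomial.aeval (eisensteinSystem p) (heckeGen (h19_pr p)) := rfl
  rw [h, aeval_heckeGen]
  exact eisensteinSystem_of_dvd (N := p) (ℓ := h19_pr p) (dvd_refl p)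

theorem h19_chi0_X_of_ne {ℓ : ℕ} (hℓ : ℓ.Prime) (hℓp : ¬ ℓ ∣ p) :
    h19_chi0 p (heckeGen (h19_mk hℓ)) = 1 + (ℓ : ℤ) := by
  have h : h19_chi0 p (heckeGen (h19_mk hℓ)) =
      MvPolynomial.aeval (eisensteinSystem p) (heckeGen (h19_mk hℓ)) := rfl
  rw [h, aeval_heckeGen]
  have h2 := eisensteinSystem_of_not_dvd (N := p) (ℓ := h19_mk hℓ) hℓp
  rw [h2]
  rfl

theorem h19_chi0_C (z : ℤ) : h19_chi0 p (MvPolynomial.C z) = z := by
  have h : h19_chi0 p (MvPolynomial.C z) =
      MvPolynomial.aeval (eisensteinSystem p) (MvPolynomial.C z) := rfl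
  rw [h, MvPolynomial.aeval_C]
  rfl

/-- **[RED-TK]** the Hecke polynomials. -/
theorem h19_exists_heckePoly (k : ℕ) (hk : 0 < k) :
    ∃ P : HeckeAlg, (∀ g : CuspForm (Gamma0 p) 2, qCoeff ⇑(h19_op p P g) 1 = qCoeff ⇑g k) ∧
      h19_chi0 p P = (sigmaStar p k : ℤ) := by
  have hpp : p.Prime := Fact.out
  induction k using Nat.strong_induction_on with
  | _ n ih =>
    rcases Nat.eq_or_lt_of_le (Nat.succ_le_of_lt hk) with h1 | h1
    · refine ⟨1, fun g => ?_, ?_⟩
      · rw [h19_op_one, ← h1]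
        rfl
      · rw [map_one, ← h1, H7.h7_sigmaStar_one]
        rfl
    · have hn1 : n ≠ 1 := by omega
      have hℓ : (n.minFac).Prime := Nat.minFac_prime hn1
      set ℓ := n.minFac with hℓdef
      obtain ⟨m, hm⟩ := Nat.minFac_dvd n
      rw [← hℓdef] at hm
      have hm0 : 0 < m := by
        rcases Nat.eq_zero_or_pos m with h | h
        · rw [h, mul_zero] at hm; omega
        · exact h
      have hmn : m < n := by
        rw [hm]
        exact lt_mul_of_one_lt_left hm0 hℓ.one_lt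
      obtain ⟨Pm, hPm, hPmχ⟩ := ih m hmn hm0
      have hnm : n = m * ℓ := by rw [hm, mul_comm]
      by_cases hℓp : ℓ ∣ p
      · -- `ℓ = p`
        have hℓeq : ℓ = p := (Nat.prime_dvd_prime_iff_eq hℓ hpp).mp hℓp
        refine ⟨Pm * heckeGen (h19_pr p), fun g => ?_, ?_⟩
        · rw [h19_op_mul, Module.End.mul_apply, hPm, h19_op_X_self,
            Fermat.Agent.S23.H9.qCoeff_heckeULin hpp (dvd_refl p), hnm, hℓeq]
        · rw [map_mul, hPmχ, h19_chi0_X_self, mul_one, hm, hℓeq,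
            H7.h7_sigmaStar_mul_self p m hm0]
      · have hℓne : ℓ ≠ p := fun h => hℓp (h ▸ dvd_refl _)
        have hsig := H7.h7_sigmaStar_mul_prime p ℓ m hℓ hℓne hm0
        by_cases hℓm : ℓ ∣ m
        · obtain ⟨m', hm'⟩ := hℓm
          have hm'0 : 0 < m' := by
            rcases Nat.eq_zero_or_pos m' with h | h
            · rw [h, mul_zero] at hm'; omega
            · exact h
          have hm'n : m' < n := by
            have : m' < m := by
              rw [hm']
              exact lt_mul_of_one_lt_left hm'0 hℓ.one_lt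
            omega
          obtain ⟨Pm', hPm', hPm'χ⟩ := ih m' hm'n hm'0
          have hdiv : m / ℓ = m' := by
            rw [hm']
            exact Nat.mul_div_cancel_left m' hℓ.pos
          refine ⟨Pm * heckeGen (h19_mk hℓ) - MvPolynomial.C (ℓ : ℤ) * Pm', fun g => ?_, ?_⟩
          · rw [h19_op_sub, h19_op_mul, h19_op_mul, LinearMap.sub_apply, Module.End.mul_apply,
              Module.End.mul_apply, Fermat.Agent.S49.qCoeff_sub, hPm, h19_op_X_of_ne p hℓ hℓp,
              Fermat.Agent.S23.H9.qCoeff_heckeTLin hℓ hℓp, if_pos ⟨m', hm'⟩, h19_op_C,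
              Fermat.Agent.S49.qCoeff_smul, hPm', hdiv, hnm]
            push_cast
            ring
          · rw [map_sub, map_mul, map_mul, hPmχ, hPm'χ, h19_chi0_X_of_ne p hℓ hℓp, h19_chi0_C, hm]
            rw [if_pos ⟨m', hm'⟩, hdiv] at hsig
            have hsigZ : ((sigmaStar p (ℓ * m) : ℕ) : ℤ) + (ℓ : ℤ) * (sigmaStar p m' : ℤ) =
                (1 + (ℓ : ℤ)) * (sigmaStar p m : ℤ) := by exact_mod_cast hsig
            linear_combination -hsigZ
        · refine ⟨Pm * heckeGen (h19_mk hℓ), fun g => ?_, ?_⟩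
          · rw [h19_op_mul, Module.End.mul_apply, hPm, h19_op_X_of_ne p hℓ hℓp,
              Fermat.Agent.S23.H9.qCoeff_heckeTLin hℓ hℓp, if_neg hℓm, add_zero, hnm]
          · rw [map_mul, hPmχ, h19_chi0_X_of_ne p hℓ hℓp, hm]
            rw [if_neg hℓm, mul_zero, add_zero] at hsig
            have hsigZ : ((sigmaStar p (ℓ * m) : ℕ) : ℤ) =
                (1 + (ℓ : ℤ)) * (sigmaStar p m : ℤ) := by exact_mod_cast hsig
            linear_combination -hsigZ

/-- the action of `ρ(P)` on the lattice is the restriction of `P(T)`. -/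
theorem h19_rho_apply (P : HeckeAlg) (f : ↥(intLattice p 2)) :
    ((((rho p P : ↥(heckeLatticeAlgebra p ∅)) : Module.End ℤ ↥(intLattice p 2)) f :
      ↥(intLattice p 2)) : CuspForm (Gamma0 p) 2) = h19_op p P (f : CuspForm (Gamma0 p) 2) :=
  rfl

/-- the inclusion `T → End_ℤ(L)`. -/
def h19_incl : ↥(heckeLatticeAlgebra p ∅) →+* Module.End ℤ ↥(intLattice p 2) :=
  (heckeLatticeAlgebra p ∅).val.toRingHom

theorem h19_incl_injective : Function.Injective (h19_incl p) :=
  Subtype.val_injective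

theorem h19_coeff_heckePoly (k : ℕ) (hk : 1 ≤ k) :
    ∃ P : HeckeAlg, (∀ f : ↥(intLattice p 2),
        h19_coeff p k f = h19_coeff p 1 (h19_incl p (rho p P) f)) ∧
      h19_chi0 p P = (sigmaStar p k : ℤ) := by
  obtain ⟨P, hP, hχ⟩ := h19_exists_heckePoly p k hk
  refine ⟨P, fun f => ?_, hχ⟩
  have h : ((h19_coeff p k f : ℤ) : ℂ) = ((h19_coeff p 1 (h19_incl p (rho p P) f) : ℤ) : ℂ) := by
    rw [h19_coeff_spec, h19_coeff_spec]
    exact (hP _).symm
  exact_mod_cast h

/-- **[RED] StDual.** -/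
theorem h19_stDual : StDual p := by
  intro M _ hhom
  obtain ⟨φ, hφ⟩ := hhom
  have := intLattice.moduleFinite p
  have := intLattice.moduleFree p
  obtain ⟨f, hf⟩ := H29.exists_dual_mod (h19_incl p) (h19_coeff p) (h19_incl_injective p)
    (h19_coeff_inj p) (h19_coeff_sat p)
    (fun k hk => by
      obtain ⟨P, hP, -⟩ := h19_coeff_heckePoly p k hk
      exact ⟨rho p P, hP⟩) M φ.toAddMonoidHom
  refine ⟨(f : CuspForm (Gamma0 p) 2), f.2, fun k hk => ?_⟩
  obtain ⟨P, hP, hχ⟩ := h19_coeff_heckePoly p k hk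
  have h1 := hf (rho p P)
  rw [← hP f] at h1
  have h2 : ((h19_coeff p k f : ℤ) : ZMod M) = ((sigmaStar p k : ℤ) : ZMod M) := by
    rw [h1]
    show φ (rho p P) = _
    rw [hφ P, h19_eisChar_eq, hχ]
  rw [ZMod.intCast_eq_intCast_iff_dvd_sub] at h2
  obtain ⟨c, hc⟩ := h2
  refine ⟨-c, ?_⟩
  rw [← h19_coeff_spec]
  have h3 : h19_coeff p k f = (sigmaStar p k : ℤ) + (M : ℤ) * (-c) := by linarith
  rw [h3]
  push_cast
  ring

end Fermat.Agent.S16x.Red
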