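import Mathlib
import Fermat.Prelude.Def_CuspForm_IntegralStructure
import Fermat.Prelude.Sol.S_CuspForm_intLattice_fg

/-!
# S16 / package RED, leaf [RED-COEFF] (helper11)

The coefficient functionals on the lattice `L = intLattice N k` of cusp forms with integral
`q`-expansion:

* `coeffL N k n : ↥(intLattice N k) →ₗ[ℤ] ℤ` with `coeffL_spec : ((coeffL N k n f : ℤ) : ℂ) = a_n(f)`;
* `coeffL_zero`  : `a_0 = 0`;
* `coeffL_inj`   : `(∀ n ≥ 1, a_n(f) = 0) → f = 0`   (`q`-expansion principle);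
* `coeffL_sat`   : `d ≠ 0 → (∀ n ≥ 1, d ∣ a_n(f)) → ∃ g ∈ L, f = d • g`   (saturation).

These are exactly the hypotheses `hinj`, `hsat` of `Red.H29.exists_dual` (helper29's abstract core).
-/

set_option autoImplicit false

noncomputable section

open ModularFormClass CongruenceSubgroup
open P2MW.S_CuspForm_intLattice_fg.W3WsD

namespace Fermat.Agent.S16x.Red.H11

variable (N : ℕ) (k : ℤ)

/-- The `n`-th coefficient of an element of the integral lattice, as an integer. -/
def coeffZ (n : ℕ) (f : ↥(CuspForm.intLattice N k)) : ℤ :=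
  Classical.choose ((mem_intLattice_iff (f : CuspForm (Gamma0 N) k)).mp f.2 n)

theorem coeffZ_spec (n : ℕ) (f : ↥(CuspForm.intLattice N k)) :
    ((coeffZ N k n f : ℤ) : ℂ) = qCoeff (f : CuspForm (Gamma0 N) k) n :=
  (Classical.choose_spec ((mem_intLattice_iff (f : CuspForm (Gamma0 N) k)).mp f.2 n)).symm

/-- The `n`-th coefficient as a `ℤ`-linear form on the integral lattice. -/
def coeffL (n : ℕ) : ↥(CuspForm.intLattice N k) →ₗ[ℤ] ℤ where
  toFun := coeffZ N k n
  map_add' f g := by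
    apply Int.cast_injective (α := ℂ)
    rw [Int.cast_add, coeffZ_spec, coeffZ_spec, coeffZ_spec, Submodule.coe_add, qCoeff_add]
  map_smul' c f := by
    apply Int.cast_injective (α := ℂ)
    rw [RingHom.id_apply, smul_eq_mul, Int.cast_mul, coeffZ_spec, coeffZ_spec,
      Submodule.coe_smul, qCoeff_zsmul]

theorem coeffL_spec (n : ℕ) (f : ↥(CuspForm.intLattice N k)) :
    ((coeffL N k n f : ℤ) : ℂ) = qCoeff (f : CuspForm (Gamma0 N) k) n :=
  coeffZ_spec N k n f

/-- The constant coefficient of a cusp form vanishes. -/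
theorem qCoeff_zero_cusp (f : CuspForm (Gamma0 N) k) : qCoeff f 0 = 0 :=
  CuspFormClass.qExpansion_coeff_zero f one_pos (hΓ N)

theorem coeffL_zero (f : ↥(CuspForm.intLattice N k)) : coeffL N k 0 f = 0 := by
  apply Int.cast_injective (α := ℂ)
  rw [coeffL_spec, qCoeff_zero_cusp, Int.cast_zero]

/-- A cusp form all of whose coefficients `a_n`, `n ≥ 1`, vanish is zero. -/
theorem eq_zero_of_qCoeff [NeZero N] (f : CuspForm (Gamma0 N) k)
    (h : ∀ n : ℕ, 1 ≤ n → qCoeff f n = 0) : f = 0 := by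
  apply trunc_injective N k
  rw [map_zero]
  funext i
  show qCoeff (⇑f) (i : ℕ) = 0
  rcases Nat.eq_zero_or_pos (i : ℕ) with h0 | h0
  · rw [h0]; exact qCoeff_zero_cusp N k f
  · exact h _ h0

/-- **`hinj`** (`q`-expansion principle on the lattice). -/
theorem coeffL_inj [NeZero N] (f : ↥(CuspForm.intLattice N k))
    (h : ∀ n : ℕ, 1 ≤ n → coeffL N k n f = 0) : f = 0 := by
  apply Subtype.ext
  rw [Submodule.coe_zero]
  apply eq_zero_of_qCoeff
  intro n hn
  rw [← coeffL_spec, h n hn, Int.cast_zero]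

/-- `a_n (c • f) = c * a_n f` for complex scalars. -/
theorem qCoeff_smul_complex (c : ℂ) (f : CuspForm (Gamma0 N) k) (n : ℕ) :
    qCoeff (⇑(c • f)) n = c * qCoeff (⇑f) n := by
  have h1 : ⇑(c • f) = c • ⇑f := by
    ext z
    simp
  simp only [qCoeff, h1]
  rw [ModularForm.qExpansion_smul one_pos (hΓ N) c f]
  simp

/-- **`hsat`** (the lattice is saturated with respect to the coefficients `a_n`, `n ≥ 1`). -/
theorem coeffL_sat (f : ↥(CuspForm.intLattice N k)) (d : ℕ) (hd : d ≠ 0)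
    (h : ∀ n : ℕ, 1 ≤ n → (d : ℤ) ∣ coeffL N k n f) :
    ∃ g : ↥(CuspForm.intLattice N k), f = (d : ℤ) • g := by
  have hdC : (d : ℂ) ≠ 0 := Nat.cast_ne_zero.mpr hd
  have hg : ((d : ℂ)⁻¹ • (f : CuspForm (Gamma0 N) k)) ∈ CuspForm.intLattice N k := by
    rw [mem_intLattice_iff]
    intro n
    rcases Nat.eq_zero_or_pos n with h0 | h0
    · refine ⟨0, ?_⟩
      rw [h0, qCoeff_zero_cusp, Int.cast_zero]
    · obtain ⟨c, hc⟩ := h n h0
      refine ⟨c, ?_⟩
      rw [qCoeff_smul_complex, ← coeffL_spec, hc]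
      push_cast
      field_simp
  refine ⟨⟨_, hg⟩, ?_⟩
  apply Subtype.ext
  rw [Submodule.coe_smul]
  show (f : CuspForm (Gamma0 N) k) = (d : ℤ) • ((d : ℂ)⁻¹ • (f : CuspForm (Gamma0 N) k))
  rw [← Int.cast_smul_eq_zsmul ℂ, smul_smul]
  push_cast
  rw [mul_inv_cancel₀ hdC, one_smul]

end Fermat.Agent.S16x.Red.H11
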