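import Mathlib

/-!
# S16 / package RED, leaf [RED-SIGMA] (helper11)

`sigmaStar' p k = ∑_{d ∣ k, p ∤ d} d` and its two Hecke relations:

* `sigmaStar_mul_prime` : for primes `l ≠ p` and `m > 0`,
  `σ*(l m) + l σ*(m / l) = (1 + l) σ*(m)` (the second term only if `l ∣ m`);
* `sigmaStar_mul_self`  : `σ*(p m) = σ*(m)`.

Mathlib only.
-/

set_option autoImplicit false

namespace Fermat.Agent.S16x.Red.H11

/-- `σ*(k)`: the sum of the divisors of `k` which are prime to `p`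
(`= Asm.sigmaStar` without the `Fact` instance). -/
def sigmaStar' (p k : ℕ) : ℕ := ∑ d ∈ k.divisors.filter (fun d => ¬ p ∣ d), d

theorem sigmaStar'_def (p k : ℕ) :
    sigmaStar' p k = ∑ d ∈ k.divisors.filter (fun d => ¬ p ∣ d), d := rfl

/-- The divisors of `m` prime to `p`, split according to whether `l * e ∣ m`. -/
private theorem sum_split (p l m : ℕ) :
    sigmaStar' p m =
      (∑ e ∈ (m.divisors.filter (fun d => ¬ p ∣ d)).filter (fun e => l * e ∣ m), e) +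
        ∑ e ∈ (m.divisors.filter (fun d => ¬ p ∣ d)).filter (fun e => ¬ l * e ∣ m), e := by
  rw [sigmaStar'_def, Finset.sum_filter_add_sum_filter_not]

/-- The part with `l * e ∣ m` is `σ*(m / l)` (or empty). -/
private theorem sum_part_dvd (p l m : ℕ) (hl : 0 < l) (hm : 0 < m) :
    (∑ e ∈ (m.divisors.filter (fun d => ¬ p ∣ d)).filter (fun e => l * e ∣ m), e) =
      if l ∣ m then sigmaStar' p (m / l) else 0 := by
  split_ifs with h
  · rw [sigmaStar'_def]
    apply Finset.sum_congr _ (fun _ _ => rfl)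
    ext e
    simp only [Finset.mem_filter, Nat.mem_divisors]
    obtain ⟨m', rfl⟩ := h
    have hm' : 0 < m' := Nat.pos_of_ne_zero (by rintro rfl; simp at hm)
    rw [Nat.mul_div_cancel_left _ hl]
    constructor
    · rintro ⟨⟨⟨_, _⟩, hp⟩, hle⟩
      exact ⟨⟨(Nat.mul_dvd_mul_iff_left hl).mp hle, hm'.ne'⟩, hp⟩
    · rintro ⟨⟨he, _⟩, hp⟩
      exact ⟨⟨⟨Dvd.dvd.mul_left he l, hm.ne'⟩, hp⟩, Nat.mul_dvd_mul_left l he⟩
  · apply Finset.sum_eq_zero
    intro e he
    simp only [Finset.mem_filter] at he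
    exact absurd (Dvd.dvd.trans (Dvd.intro _ rfl) he.2) h

/-- The divisors of `l * m` prime to `p`: those of `m`, and `l *` those `e ∣ m` with
`l * e ∤ m`. -/
private theorem sum_mul (p l m : ℕ) (hp : p.Prime) (hl : l.Prime) (hlp : l ≠ p) (hm : 0 < m) :
    sigmaStar' p (l * m) = sigmaStar' p m +
      l * ∑ e ∈ (m.divisors.filter (fun d => ¬ p ∣ d)).filter (fun e => ¬ l * e ∣ m), e := by
  have hlm : l * m ≠ 0 := Nat.mul_ne_zero hl.ne_zero hm.ne'
  have hpl : ¬ p ∣ l := fun h => hlp ((Nat.prime_dvd_prime_iff_eq hp hl).mp h).symm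
  rw [sigmaStar'_def, sigmaStar'_def, Finset.mul_sum]
  rw [← Finset.sum_image (s := (m.divisors.filter (fun d => ¬ p ∣ d)).filter
        (fun e => ¬ l * e ∣ m)) (g := fun e => l * e) (f := fun d => d)
      (fun a _ b _ h => Nat.eq_of_mul_eq_mul_left hl.pos h)]
  rw [← Finset.sum_union]
  · apply Finset.sum_congr _ (fun _ _ => rfl)
    ext d
    simp only [Finset.mem_filter, Nat.mem_divisors, Finset.mem_union, Finset.mem_image]
    constructor
    · rintro ⟨⟨hd, _⟩, hpd⟩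
      by_cases hdm : d ∣ m
      · exact Or.inl ⟨⟨hdm, hm.ne'⟩, hpd⟩
      · right
        have hld : l ∣ d := by
          by_contra hld
          have hcop : Nat.Coprime d l := (Nat.Coprime.symm ((Nat.Prime.coprime_iff_not_dvd hl).mpr hld))
          exact hdm (hcop.dvd_of_dvd_mul_left hd)
        obtain ⟨e, rfl⟩ := hld
        have hem : e ∣ m := (Nat.mul_dvd_mul_iff_left hl.pos).mp hd
        refine ⟨e, ⟨⟨⟨hem, hm.ne'⟩, fun hpe => hpd (Dvd.dvd.mul_left hpe l)⟩, hdm⟩, rfl⟩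
    · rintro (⟨⟨hd, _⟩, hpd⟩ | ⟨e, ⟨⟨⟨hem, _⟩, hpe⟩, _⟩, rfl⟩)
      · exact ⟨⟨Dvd.dvd.mul_left hd l, hlm⟩, hpd⟩
      · refine ⟨⟨Nat.mul_dvd_mul_left l hem, hlm⟩, fun h => ?_⟩
        rcases (Nat.Prime.dvd_mul hp).mp h with h | h
        · exact hpl h
        · exact hpe h
  · rw [Finset.disjoint_left]
    intro d hd hd'
    simp only [Finset.mem_filter, Nat.mem_divisors, Finset.mem_image] at hd hd'
    obtain ⟨e, ⟨_, hne⟩, rfl⟩ := hd'
    exact hne hd.1.1

/-- **Hecke relation at a prime `l ≠ p`**: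
`σ*(l m) + l σ*(m / l) = (1 + l) σ*(m)`. -/
theorem sigmaStar_mul_prime (p l m : ℕ) (hp : p.Prime) (hl : l.Prime) (hlp : l ≠ p)
    (hm : 0 < m) :
    sigmaStar' p (l * m) + l * (if l ∣ m then sigmaStar' p (m / l) else 0) =
      (1 + l) * sigmaStar' p m := by
  rw [sum_mul p l m hp hl hlp hm, ← sum_part_dvd p l m hl.pos hm, sum_split p l m]
  ring

/-- **Hecke relation at `p`**: `σ*(p m) = σ*(m)`. -/
theorem sigmaStar_mul_self (p m : ℕ) (hp : p.Prime) (hm : 0 < m) :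
    sigmaStar' p (p * m) = sigmaStar' p m := by
  rw [sigmaStar'_def, sigmaStar'_def]
  apply Finset.sum_congr _ (fun _ _ => rfl)
  ext d
  simp only [Finset.mem_filter, Nat.mem_divisors]
  constructor
  · rintro ⟨⟨hd, _⟩, hpd⟩
    have hcop : Nat.Coprime d p := (Nat.Coprime.symm ((Nat.Prime.coprime_iff_not_dvd hp).mpr hpd))
    exact ⟨⟨hcop.dvd_of_dvd_mul_left hd, hm.ne'⟩, hpd⟩
  · rintro ⟨⟨hd, _⟩, hpd⟩
    exact ⟨⟨Dvd.dvd.mul_left hd p, Nat.mul_ne_zero hp.ne_zero hm.ne'⟩, hpd⟩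

/-- `σ*(1) = 1`. -/
theorem sigmaStar_one (p : ℕ) (hp : p.Prime) : sigmaStar' p 1 = 1 := by
  have h1 : ¬ p ∣ 1 := fun h => hp.one_lt.ne' (Nat.dvd_one.mp h)
  simp [sigmaStar'_def, Finset.filter_singleton, h1]

end Fermat.Agent.S16x.Red.H11
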