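import Fermat.Agent.S16x.Red.H11_Sigma
import Fermat.Agent.S16x.Asm.Defs

/-!
# S16 / package RED, leaf [RED-SIGMA] in the vocabulary of `Asm/Defs` (helper11)

The two Hecke relations of `σ*` for `Asm.sigmaStar p`, in `ℕ` and in any commutative ring
(`ℤ`, `ZMod M`, `ℂ`).
-/

set_option autoImplicit false

namespace Fermat.Agent.S16x.Red.H11

open Fermat.Agent.S16x.Asm

theorem sigmaStar_eq (p k : ℕ) : sigmaStar p k = sigmaStar' p k := rfl

/-- `σ*(l m) + l σ*(m / l) = (1 + l) σ*(m)` for primes `l ≠ p`, `m > 0`. -/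
theorem asm_sigmaStar_mul_prime (p l m : ℕ) (hp : p.Prime) (hl : l.Prime) (hlp : l ≠ p)
    (hm : 0 < m) :
    sigmaStar p (l * m) + l * (if l ∣ m then sigmaStar p (m / l) else 0) =
      (1 + l) * sigmaStar p m :=
  sigmaStar_mul_prime p l m hp hl hlp hm

/-- `σ*(p m) = σ*(m)` for `m > 0`. -/
theorem asm_sigmaStar_mul_self (p m : ℕ) (hp : p.Prime) (hm : 0 < m) :
    sigmaStar p (p * m) = sigmaStar p m :=
  sigmaStar_mul_self p m hp hm

/-- `σ*(1) = 1`. -/
theorem asm_sigmaStar_one (p : ℕ) (hp : p.Prime) : sigmaStar p 1 = 1 :=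
  sigmaStar_one p hp

/-- The relation at `l ≠ p` when `l ∣ m`. -/
theorem asm_sigmaStar_mul_prime_of_dvd (p l m : ℕ) (hp : p.Prime) (hl : l.Prime) (hlp : l ≠ p)
    (hm : 0 < m) (h : l ∣ m) :
    sigmaStar p (l * m) + l * sigmaStar p (m / l) = (1 + l) * sigmaStar p m := by
  have := asm_sigmaStar_mul_prime p l m hp hl hlp hm
  rwa [if_pos h] at this

/-- The relation at `l ≠ p` when `l ∤ m`. -/
theorem asm_sigmaStar_mul_prime_of_not_dvd (p l m : ℕ) (hp : p.Prime) (hl : l.Prime)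
    (hlp : l ≠ p) (hm : 0 < m) (h : ¬ l ∣ m) :
    sigmaStar p (l * m) = (1 + l) * sigmaStar p m := by
  have := asm_sigmaStar_mul_prime p l m hp hl hlp hm
  rwa [if_neg h, Nat.mul_zero, Nat.add_zero] at this

/-- The relation at `l ≠ p` in any commutative ring (e.g. `ℤ`, `ZMod M`, `ℂ`). -/
theorem asm_sigmaStar_mul_prime_cast (R : Type*) [CommRing R] (p l m : ℕ) (hp : p.Prime)
    (hl : l.Prime) (hlp : l ≠ p) (hm : 0 < m) :
    (sigmaStar p (l * m) : R) + (l : R) * (if l ∣ m then (sigmaStar p (m / l) : R) else 0) =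
      (1 + (l : R)) * (sigmaStar p m : R) := by
  have h := congrArg (Nat.cast : ℕ → R) (asm_sigmaStar_mul_prime p l m hp hl hlp hm)
  push_cast at h
  exact h

/-- The relation at `p` in any commutative ring. -/
theorem asm_sigmaStar_mul_self_cast (R : Type*) [CommRing R] (p m : ℕ) (hp : p.Prime)
    (hm : 0 < m) :
    (sigmaStar p (p * m) : R) = (sigmaStar p m : R) := by
  rw [asm_sigmaStar_mul_self p m hp hm]

end Fermat.Agent.S16x.Red.H11
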